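import Mathlib
import Fermat.Agent.S59.H105.NatLoc
import Fermat.Agent.S38.H719.UUK
import Fermat.Agent.S59.TW.H201.KDegHecke
import Fermat.Agent.S59.TW.H201.KDegLinear
import Fermat.Agent.S59.TW.Aut.H511.Idem

/-!
# HARD / HECKE, IA-ST step (a), generic form (helper201)

Level `N`, `Γ₁(N) ≤ K ≤ Γ₀(N)`, a prime `q ∤ N`, `K_q = K ⊓ Γ₀(N q)`, `𝒪` a complete discrete
valuation ring.

* `t₁K_mem_locPart201`, `t₂K_mem_locPart201` : the transfers `t₁, t₂ : X_{K_q}(𝒪) → X_K(𝒪)` map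
  the localisation of `X_{K_q}(𝒪)` at an eigen-system into the localisation of `X_K(𝒪)` at the
  same eigen-system (NAT1 of helper105 + `TK_t₁K`, …, `UK_t₂K`);
* `UK_UK_of_locZero201` : if the localisation at level `K` vanishes, then `U_q² = ⟨σ⟩` on the
  localisation at level `K_q` (`σ ∈ Γ₀(N q)` with lower right entry `≡ q mod N`)
  (`H719.UK_UK_K_of_new`);
* `UK_UK_of_locZero_cast201` : the same for a group `K₁` and a level `M₁` which are only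
  propositionally equal to `K_q` and `N q`.
-/

set_option autoImplicit false

namespace Fermat.Agent.S38.H201

open IsLocalRing CongruenceSubgroup
open Fermat.Agent.S41.Spec Fermat.Agent.S59.TW.H653 Fermat.Agent.S59.TW.Aut
open Fermat.Agent.S59.TW.H201
open scoped MatrixGroups

section

variable {𝒪 : Type} [CommRing 𝒪] [IsDomain 𝒪] [IsDiscreteValuationRing 𝒪]
  [IsAdicComplete (maximalIdeal 𝒪) 𝒪]
variable {N q : ℕ} {K : Subgroup SL(2, ℤ)}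

theorem not_dvd_of_not_dvd_mul201 {a : ℕ} (h : ¬ a ∣ N * q) : ¬ a ∣ N :=
  fun h' => h (dvd_mul_of_dvd_left h' q)

/-- An `𝒪`-linear map `f : X_{K_q}(𝒪) → X_K(𝒪)` commuting with the `T_ℓ` (`ℓ ∤ N q`) and the
`U_{q'}` (`q' ∣ N`) maps localisations into localisations. -/
theorem map_mem_locPart201 (hN : N ≠ 0) (hK : IsMid N K)
    {Tset Uset : Set (ℕ × 𝒪)} {V : Submodule 𝒪 (Additive (Kq N q K) →+ 𝒪)}
    (hV : IsLocPart (isMid_Kq hK q) Tset Uset V)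
    {Ts Us : Set (ℕ × 𝒪)} {W : Submodule 𝒪 (Additive K →+ 𝒪)}
    (hW : IsLocPart hK Ts Us W) (hTs : Ts ⊆ Tset) (hUs : Us ⊆ Uset)
    (hT : ∀ x ∈ Ts, x.1.Prime ∧ ¬ x.1 ∣ N * q) (hU : ∀ x ∈ Us, x.1.Prime ∧ x.1 ∣ N)
    (f : (Additive (Kq N q K) →+ 𝒪) →ₗ[𝒪] (Additive K →+ 𝒪))
    (hfT : ∀ (ℓ : ℕ) [Fact ℓ.Prime], ¬ ℓ ∣ N * q → ∀ ψ : Additive (Kq N q K) →+ 𝒪,
      f (TK (N * q) (Kq N q K) ℓ ψ) = TK N K ℓ (f ψ))
    (hfU : ∀ (q' : ℕ) [Fact q'.Prime], q' ∣ N → ∀ ψ : Additive (Kq N q K) →+ 𝒪,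
      f (UK (Kq N q K) q' ψ) = UK K q' (f ψ)) :
    ∀ x ∈ V, f x ∈ W := by
  have hU₁ : ∀ x ∈ Us, x.1.Prime ∧ x.1 ∣ N * q :=
    fun x hx => ⟨(hU x hx).1, dvd_mul_of_dvd_left (hU x hx).2 q⟩
  have hT₂ : ∀ x ∈ Ts, x.1.Prime ∧ ¬ x.1 ∣ N :=
    fun x hx => ⟨(hT x hx).1, not_dvd_of_not_dvd_mul201 (hT x hx).2⟩
  refine Fermat.Agent.S59.H105.nat_of_isLocPart hN (isMid_Kq hK q) hK hV hW hTs hUs hT hU₁
    hT₂ hU f ?_
  intro i x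
  rcases i with i | i
  · have : Fact i.1.1.Prime := ⟨(hT i.1 i.2).1⟩
    show f (TK (N * q) (Kq N q K) i.1.1 x - i.1.2 • x) = TK N K i.1.1 (f x) - i.1.2 • f x
    rw [map_sub, map_smul, hfT i.1.1 (hT i.1 i.2).2]
  · have : Fact i.1.1.Prime := ⟨(hU i.1 i.2).1⟩
    show f (UK (Kq N q K) i.1.1 x - i.1.2 • x) = UK K i.1.1 (f x) - i.1.2 • f x
    rw [map_sub, map_smul, hfU i.1.1 (hU i.1 i.2).2]

/-- `t₁` maps the localisation at level `K_q` into the localisation at level `K`. -/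
theorem t₁K_mem_locPart201 (hN : N ≠ 0) (hq : q.Prime) (hqN : ¬ q ∣ N) (hK : IsMid N K)
    {Tset Uset : Set (ℕ × 𝒪)} {V : Submodule 𝒪 (Additive (Kq N q K) →+ 𝒪)}
    (hV : IsLocPart (isMid_Kq hK q) Tset Uset V)
    {Ts Us : Set (ℕ × 𝒪)} {W : Submodule 𝒪 (Additive K →+ 𝒪)}
    (hW : IsLocPart hK Ts Us W) (hTs : Ts ⊆ Tset) (hUs : Us ⊆ Uset)
    (hT : ∀ x ∈ Ts, x.1.Prime ∧ ¬ x.1 ∣ N * q) (hU : ∀ x ∈ Us, x.1.Prime ∧ x.1 ∣ N) :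
    ∀ x ∈ V, t₁K N q K x ∈ W :=
  map_mem_locPart201 hN hK hV hW hTs hUs hT hU (t₁KL 𝒪 𝒪 N q K)
    (fun _ _ hℓ ψ => (TK_t₁K hK hN hq hqN hℓ ψ).symm)
    (fun _ _ hq' ψ => (UK_t₁K hK hN hq hqN hq' ψ).symm)

/-- `t₂` maps the localisation at level `K_q` into the localisation at level `K`. -/
theorem t₂K_mem_locPart201 (hN : N ≠ 0) (hq : q.Prime) (hqN : ¬ q ∣ N) (hK : IsMid N K)
    {Tset Uset : Set (ℕ × 𝒪)} {V : Submodule 𝒪 (Additive (Kq N q K) →+ 𝒪)}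
    (hV : IsLocPart (isMid_Kq hK q) Tset Uset V)
    {Ts Us : Set (ℕ × 𝒪)} {W : Submodule 𝒪 (Additive K →+ 𝒪)}
    (hW : IsLocPart hK Ts Us W) (hTs : Ts ⊆ Tset) (hUs : Us ⊆ Uset)
    (hT : ∀ x ∈ Ts, x.1.Prime ∧ ¬ x.1 ∣ N * q) (hU : ∀ x ∈ Us, x.1.Prime ∧ x.1 ∣ N) :
    ∀ x ∈ V, t₂K hK q x ∈ W :=
  map_mem_locPart201 hN hK hV hW hTs hUs hT hU (t₂KL 𝒪 𝒪 hK q)
    (fun _ _ hℓ ψ => (TK_t₂K hK hN hq hqN hℓ ψ).symm)
    (fun _ _ hq' ψ => (UK_t₂K hK hN hq hqN hq' ψ).symm)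

/-- **Step (a).**  If every localisation of `X_K(𝒪)` at `(Ts, Us)` vanishes, then `U_q² = ⟨σ⟩`
on every localisation of `X_{K_q}(𝒪)` at an eigen-system containing `(Ts, Us)`. -/
theorem UK_UK_of_locZero201 [Fact q.Prime] (hN : N ≠ 0) (hqN : ¬ q ∣ N) (hK : IsMid N K)
    {Tset Uset : Set (ℕ × 𝒪)} {V : Submodule 𝒪 (Additive (Kq N q K) →+ 𝒪)}
    (hV : IsLocPart (isMid_Kq hK q) Tset Uset V)
    {Ts Us : Set (ℕ × 𝒪)} (hTs : Ts ⊆ Tset) (hUs : Us ⊆ Uset)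
    (hT : ∀ x ∈ Ts, x.1.Prime ∧ ¬ x.1 ∣ N * q) (hU : ∀ x ∈ Us, x.1.Prime ∧ x.1 ∣ N)
    (hzero : ∀ W : Submodule 𝒪 (Additive K →+ 𝒪), IsLocPart hK Ts Us W → W = ⊥)
    (σ : Gamma0 (N * q))
    (hσ : ((dUnit N (incl N q σ) : (ZMod N)ˣ) : ZMod N) = (q : ZMod N)) :
    ∀ x ∈ V, UK (Kq N q K) q (UK (Kq N q K) q x) = diamond (isMid_Kq hK q) σ x := by
  intro x hx
  have hq : q.Prime := Fact.out
  have hT₂ : ∀ x ∈ Ts, x.1.Prime ∧ ¬ x.1 ∣ N :=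
    fun x hx => ⟨(hT x hx).1, not_dvd_of_not_dvd_mul201 (hT x hx).2⟩
  obtain ⟨W, hW⟩ := Fermat.Agent.S59.TW.Aut.H511.idem 𝒪 N hN K hK Ts Us hT₂ hU
  have hW0 : W = ⊥ := hzero W hW
  have h₁ : t₁K N q K x = 0 := by
    have := t₁K_mem_locPart201 hN hq hqN hK hV hW hTs hUs hT hU x hx
    rw [hW0] at this
    exact (Submodule.mem_bot 𝒪).mp this
  have h₂ : t₂K hK q x = 0 := by
    have := t₂K_mem_locPart201 hN hq hqN hK hV hW hTs hUs hT hU x hx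
    rw [hW0] at this
    exact (Submodule.mem_bot 𝒪).mp this
  exact Fermat.Agent.S38.H719.UK_UK_K_of_new hK hN hqN σ hσ x h₁ h₂

/-- **Step (a), transported.**  The same for a level `M₁ = N q` and a group `K₁ = K_q`
(propositional equalities). -/
theorem UK_UK_of_locZero_cast201 [Fact q.Prime] (hN : N ≠ 0) (hqN : ¬ q ∣ N)
    (hK : IsMid N K)
    {M₁ : ℕ} {K₁ : Subgroup SL(2, ℤ)} (hK₁ : IsMid M₁ K₁) (hM : M₁ = N * q)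
    (hKK : K₁ = Kq N q K)
    {Tset Uset : Set (ℕ × 𝒪)} {V : Submodule 𝒪 (Additive K₁ →+ 𝒪)}
    (hV : IsLocPart hK₁ Tset Uset V)
    {Ts Us : Set (ℕ × 𝒪)} (hTs : Ts ⊆ Tset) (hUs : Us ⊆ Uset)
    (hT : ∀ x ∈ Ts, x.1.Prime ∧ ¬ x.1 ∣ N * q) (hU : ∀ x ∈ Us, x.1.Prime ∧ x.1 ∣ N)
    (hzero : ∀ W : Submodule 𝒪 (Additive K →+ 𝒪), IsLocPart hK Ts Us W → W = ⊥)
    (σ : Gamma0 M₁)
    (hσ : ((((σ : SL(2, ℤ)) 1 1 : ℤ)) : ZMod N) = (q : ZMod N)) :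
    ∀ x ∈ V, UK K₁ q (UK K₁ q x) = diamond hK₁ σ x := by
  subst hM
  subst hKK
  refine UK_UK_of_locZero201 hN hqN hK hV hTs hUs hT hU hzero σ ?_
  rw [coe_dUnit]
  exact hσ

end

end Fermat.Agent.S38.H201
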