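import Mathlib
import Fermat.Agent.S38.H201.StepAGen
import Fermat.Agent.S38.IA.Hecke.Spec4
import Fermat.Agent.S38.IA.Hecke.LevelLemmas

/-!
# HARD / HECKE, IA-ST step (a) in the vocabulary of `Hecke/Spec3.lean`, `Hecke/Spec4.lean`
(helper201)

`L = ribetLevel p Smin Piv`, `q ∈ Piv` a pivot, `L' = ribetLevel p Smin (Piv.erase q)`, `qv` the
Taylor–Wiles set, `K₁ = KG p L qv = Γ₀(L) ∩ Γ_H(Q)`, `K' = KG p L' qv`.

* `iaStepA : IAMinZeroStatement → IAStepAStatement` : under IA-MINZERO (the localisation at level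
  `K'` vanishes), `U_q² = ⟨σ⟩` on the localisation `V₁` of `X_{K₁}(𝒪)` at the eigen-system
  `(TsetOf PQ, UsetOf qv α)`, for every `σ ∈ Γ₀(L ∏ qv)` with lower right entry `≡ q` modulo
  every Taylor–Wiles prime.
* `iaStepA_diamondU` : the same with `diamondU w`, `w ≡ q` modulo every Taylor–Wiles prime.
-/

set_option autoImplicit false

open Polynomial IsLocalRing CongruenceSubgroup
open scoped MatrixGroups

namespace Fermat.Agent.S38.H201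

open Fermat.Agent.S59.Arch Fermat.Agent.S59.TW.H959 Fermat.Agent.S59.TW
open Fermat.Agent.S59.TW.H653 Fermat.Agent.S59.TW.Aut Fermat.Agent.S59.TW.H201
open Fermat.Agent.S41.Spec
open Fermat.Agent.S38.IA Fermat.Agent.S38.IA.Hecke

/-! ## Levels -/

section Level

variable (p : ℕ) {ι : Type} [Fintype ι] (qq : ι → ℕ)

theorem gLevel_mul201 (N₀ q : ℕ) : gLevel (N₀ * q) qq = gLevel N₀ qq * q := by
  unfold gLevel
  ring

theorem ribetLevel_erase201 (Smin : Finset ℕ) {Piv : Finset ℕ} {q : ℕ} (hq : q ∈ Piv) :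
    ribetLevel p Smin Piv = ribetLevel p Smin (Piv.erase q) * q := by
  unfold ribetLevel
  rw [← Finset.mul_prod_erase Piv (fun x => x) hq]
  ring

/-- The lower right entry modulo `qq s`, through `gRed`. -/
theorem coe_gRed_dUnit201 (N₀ : ℕ) (g : Gamma0 (gLevel N₀ qq)) (s : ι) :
    ((gRed N₀ qq (dUnit (gLevel N₀ qq) g) s : (ZMod (qq s))ˣ) : ZMod (qq s)) =
      ((((g : SL(2, ℤ)) 1 1 : ℤ)) : ZMod (qq s)) := by
  rw [gRed_apply, ZMod.unitsMap_def, Units.coe_map, coe_dUnit]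
  simp only [MonoidHom.coe_coe, map_intCast]

/-- Membership in `KG p N₀ qq = Γ₀(N₀) ∩ Γ_H(qq)`. -/
theorem mem_KG_iff201 (N₀ : ℕ) (g : SL(2, ℤ)) :
    g ∈ KG p N₀ qq ↔ g ∈ Gamma0 (gLevel N₀ qq) ∧
      ∀ s, ∃ v : (ZMod (qq s))ˣ,
        ((v ^ (p ^ padicValNat p (qq s - 1)) : (ZMod (qq s))ˣ) : ZMod (qq s)) =
          (((g 1 1 : ℤ)) : ZMod (qq s)) := by
  unfold KG
  rw [mem_GammaH]
  constructor
  · rintro ⟨hg, hmem⟩
    refine ⟨hg, fun s => ?_⟩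
    rw [MonoidHom.mem_ker, gChi_apply, QuotientGroup.mk'_apply, QuotientGroup.eq_one_iff] at hmem
    obtain ⟨v, hv⟩ := (Subgroup.mem_pi _).mp hmem s (Set.mem_univ s)
    refine ⟨v, ?_⟩
    have h1 := coe_gRed_dUnit201 qq N₀ ⟨g, hg⟩ s
    rw [← h1, ← hv]
    rfl
  · rintro ⟨hg, hall⟩
    refine ⟨hg, ?_⟩
    rw [MonoidHom.mem_ker, gChi_apply, QuotientGroup.mk'_apply, QuotientGroup.eq_one_iff]
    refine (Subgroup.mem_pi _).mpr fun s _ => ?_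
    obtain ⟨v, hv⟩ := hall s
    refine ⟨v, ?_⟩
    apply Units.ext
    rw [coe_gRed_dUnit201 qq N₀ ⟨g, hg⟩ s, ← hv]
    rfl

/-- `Γ₀(N₀ q) ∩ Γ_H(qq) = (Γ₀(N₀) ∩ Γ_H(qq)) ⊓ Γ₀(N₀ ∏ qq · q)`. -/
theorem KG_mul_eq_Kq201 (N₀ q : ℕ) :
    KG p (N₀ * q) qq = Kq (gLevel N₀ qq) q (KG p N₀ qq) := by
  ext g
  rw [mem_Kq, mem_KG_iff201, mem_KG_iff201, gLevel_mul201]
  constructor
  · rintro ⟨h1, h2⟩
    exact ⟨⟨gamma0_mul_le _ _ h1, h2⟩, h1⟩
  · rintro ⟨⟨_, h2⟩, h1⟩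
    exact ⟨h1, h2⟩

/-- The prime divisors of `ribetLevel p Smin Piv · ∏ qq`. -/
theorem mem_of_prime_dvd_gLevel201 {Smin Piv : Finset ℕ} (hSmin : ∀ x ∈ Smin, x.Prime)
    (hPiv : ∀ x ∈ Piv, x.Prime) (hqq : ∀ s, (qq s).Prime) {ℓ : ℕ} (hℓ : ℓ.Prime)
    (h : ℓ ∣ gLevel (ribetLevel p Smin Piv) qq) :
    ℓ ∈ Smin ∨ ℓ ∈ Piv ∨ ∃ s, ℓ = qq s := by
  unfold gLevel ribetLevel at h
  rcases (Nat.Prime.dvd_mul hℓ).mp h with h1 | h1
  · rcases (Nat.Prime.dvd_mul hℓ).mp h1 with h2 | h2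
    · obtain ⟨x, hx, hdx⟩ := (Prime.dvd_finsetProd_iff hℓ.prime _).mp h2
      have hx' : x ∈ Smin := Finset.mem_of_mem_erase hx
      exact Or.inl (((Nat.prime_dvd_prime_iff_eq hℓ (hSmin x hx')).mp hdx) ▸ hx')
    · obtain ⟨x, hx, hdx⟩ := (Prime.dvd_finsetProd_iff hℓ.prime _).mp h2
      exact Or.inr (Or.inl (((Nat.prime_dvd_prime_iff_eq hℓ (hPiv x hx)).mp hdx) ▸ hx))
  · obtain ⟨s, _, hds⟩ := (Prime.dvd_finsetProd_iff hℓ.prime _).mp h1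
    exact Or.inr (Or.inr ⟨s, (Nat.prime_dvd_prime_iff_eq hℓ (hqq s)).mp hds⟩)

theorem ribetLevel_ne_zero201 {Smin Piv : Finset ℕ} (hSmin : ∀ x ∈ Smin, x.Prime)
    (hPiv : ∀ x ∈ Piv, x.Prime) : ribetLevel p Smin Piv ≠ 0 := by
  unfold ribetLevel
  refine Nat.mul_ne_zero ?_ ?_
  · exact Finset.prod_ne_zero_iff.mpr fun x hx => (hSmin x (Finset.mem_of_mem_erase hx)).ne_zero
  · exact Finset.prod_ne_zero_iff.mpr fun x hx => (hPiv x hx).ne_zero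

end Level

/-! ## The statement -/

/-- **IA-ST, step (a).**  `U_q² = ⟨σ⟩` on the localisation `V₁` of `X_{K₁}(𝒪)`,
`K₁ = Γ₀(L) ∩ Γ_H(Q)`, `L = ribetLevel p Smin Piv`, for every pivot `q` and every `σ ∈ Γ₀(L ∏ qv)`
with lower right entry `≡ q` modulo every Taylor–Wiles prime. -/
def IAStepAStatement : Prop :=
  ∀ (p : ℕ) [Fact p.Prime] (_hp5 : 5 ≤ p)
    (𝒪 : Type) [CommRing 𝒪] [IsDomain 𝒪] [IsDiscreteValuationRing 𝒪]
    [IsAdicComplete (maximalIdeal 𝒪) 𝒪] [Finite (ResidueField 𝒪)] [CharZero 𝒪]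
    (ρbar : ResidualGaloisRep (ResidueField 𝒪)) (Smin : Finset ℕ)
    (_h : ResidualHyp p 𝒪 ρbar Smin)
    (_hflat : (GaloisRepAdic.ofResidualGaloisRep ρbar).IsFlatAt p)
    (Piv : Finset ℕ) (_hPiv : IsPivotSet p ρbar Smin Piv)
    (_hmin : ∀ q ∈ Piv, ∀ S : Finset ℕ,
      ¬ ResModular 𝒪 ρbar (ribetLevel p Smin (Piv.erase q)) S)
    (n r : ℕ) (qv : Fin r → ℕ) (_hq : IsTWSet p ρbar (Smin ∪ Piv) n qv)
    [NeZero (wilesLevel p .flat Smin (Smin ∪ Piv ∪ Finset.univ.image qv))]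
    (PQ : HeckePkg p 𝒪 ρbar .flat Smin (Smin ∪ Piv ∪ Finset.univ.image qv))
    (α : Fin r → 𝒪) (_hα : IsFrobLift ρbar qv α)
    (q : ℕ) [Fact q.Prime] (_hqP : q ∈ Piv)
    (V₁ : Submodule 𝒪 (Additive (KG p (ribetLevel p Smin Piv) qv) →+ 𝒪)),
    IsLocPart (isMid_KG p (ribetLevel p Smin Piv) qv) (TsetOf PQ) (UsetOf qv α) V₁ →
      ∀ σ : Gamma0 (gLevel (ribetLevel p Smin Piv) qv),
        (∀ j, ((((σ : SL(2, ℤ)) 1 1 : ℤ)) : ZMod (qv j)) = (q : ZMod (qv j))) →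
        ∀ x ∈ V₁,
          UK (KG p (ribetLevel p Smin Piv) qv) q
            (UK (KG p (ribetLevel p Smin Piv) qv) q x) =
          diamond (isMid_KG p (ribetLevel p Smin Piv) qv) σ x

/-! ## The proof -/

section Proof

variable {p : ℕ} {Smin Piv : Finset ℕ} {r : ℕ} {qv : Fin r → ℕ}

/-- A pivot does not divide the level `L' ∏ qv`. -/
theorem pivot_not_dvd201 (hSmin : ∀ x ∈ Smin, x.Prime) (hPiv : ∀ x ∈ Piv, x.Prime ∧ x ∉ Smin)
    (hqv : ∀ j, (qv j).Prime ∧ qv j ∉ Smin ∪ Piv) {q : ℕ} (hqP : q ∈ Piv) :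
    ¬ q ∣ gLevel (ribetLevel p Smin (Piv.erase q)) qv := by
  intro h
  rcases mem_of_prime_dvd_gLevel201 p qv hSmin
    (fun x hx => (hPiv x (Finset.mem_of_mem_erase hx)).1) (fun j => (hqv j).1)
    (hPiv q hqP).1 h with h1 | h1 | ⟨j, h1⟩
  · exact (hPiv q hqP).2 h1
  · exact (Finset.notMem_erase q Piv) h1
  · exact (hqv j).2 (h1 ▸ Finset.mem_union_right Smin hqP)

end Proof

/-- **IA-ST, step (a)**, from IA-MINZERO. -/
theorem iaStepA (hmz : IAMinZeroStatement) : IAStepAStatement := by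
  intro p _ hp5 𝒪 _ _ _ _ _ _ ρbar Smin h hflat Piv hPiv hmin n r qv hq _ PQ α hα q _ hqP V₁
    hV₁ σ hσ x hx
  have hqprime : q.Prime := Fact.out
  have hSmin : ∀ x ∈ Smin, x.Prime := h.hSmin
  have hPiv' : ∀ x ∈ Piv, x.Prime ∧ x ∉ Smin := fun x hx => ⟨(hPiv x hx).1, (hPiv x hx).2.1⟩
  have hqv : ∀ j, (qv j).Prime ∧ qv j ∉ Smin ∪ Piv :=
    fun j => ⟨(hq.2.1 j).1, (hq.2.1 j).2.1⟩
  have hL'0 : ribetLevel p Smin (Piv.erase q) ≠ 0 :=
    ribetLevel_ne_zero201 p hSmin (fun x hx => (hPiv' x (Finset.mem_of_mem_erase hx)).1)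
  have hN : gLevel (ribetLevel p Smin (Piv.erase q)) qv ≠ 0 :=
    gLevel_ne_zero _ qv hL'0 (fun j => (hqv j).1)
  have hqN : ¬ q ∣ gLevel (ribetLevel p Smin (Piv.erase q)) qv :=
    pivot_not_dvd201 hSmin hPiv' hqv hqP
  have hM : gLevel (ribetLevel p Smin Piv) qv =
      gLevel (ribetLevel p Smin (Piv.erase q)) qv * q := by
    rw [ribetLevel_erase201 p Smin hqP, gLevel_mul201]
  have hKK : KG p (ribetLevel p Smin Piv) qv =
      Kq (gLevel (ribetLevel p Smin (Piv.erase q)) qv) q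
        (KG p (ribetLevel p Smin (Piv.erase q)) qv) := by
    rw [ribetLevel_erase201 p Smin hqP]
    exact KG_mul_eq_Kq201 p qv _ q
  -- the eigen-system
  have hT : ∀ y ∈ TsetOf PQ,
      y.1.Prime ∧ ¬ y.1 ∣ gLevel (ribetLevel p Smin (Piv.erase q)) qv * q := by
    rintro y ⟨hℓ, _, hℓS, _⟩
    refine ⟨hℓ, fun hd => hℓS ?_⟩
    rw [← hM] at hd
    rcases mem_of_prime_dvd_gLevel201 p qv hSmin (fun x hx => (hPiv' x hx).1)
      (fun j => (hqv j).1) hℓ hd with h1 | h1 | ⟨j, h1⟩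
    · exact Finset.mem_coe.mpr
        (Finset.mem_union_left _ (Finset.mem_union_left _ h1))
    · exact Finset.mem_coe.mpr
        (Finset.mem_union_left _ (Finset.mem_union_right _ h1))
    · exact Finset.mem_coe.mpr
        (Finset.mem_union_right _ (Finset.mem_image.mpr ⟨j, Finset.mem_univ j, h1.symm⟩))
  have hU : ∀ y ∈ UsetOf qv α,
      y.1.Prime ∧ y.1 ∣ gLevel (ribetLevel p Smin (Piv.erase q)) qv := by
    rintro y ⟨j, rfl⟩
    exact ⟨(hqv j).1, dvd_gLevel _ qv j⟩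
  have hzero := hmz p hp5 𝒪 ρbar Smin h hflat Piv hPiv hmin n r qv hq PQ α hα q hqP
  -- a reference element with lower right entry `≡ q` modulo `L' ∏ qv`
  have hne : NeZero (gLevel (ribetLevel p Smin Piv) qv) :=
    ⟨by rw [hM]; exact Nat.mul_ne_zero hN hqprime.ne_zero⟩
  obtain ⟨σ₁, hσ₁⟩ : ∃ σ₁ : Gamma0 (gLevel (ribetLevel p Smin Piv) qv),
      ((((σ₁ : SL(2, ℤ)) 1 1 : ℤ)) : ZMod (gLevel (ribetLevel p Smin (Piv.erase q)) qv)) =
        (q : ZMod (gLevel (ribetLevel p Smin (Piv.erase q)) qv)) := by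
    have hdvd : gLevel (ribetLevel p Smin (Piv.erase q)) qv ∣
        gLevel (ribetLevel p Smin Piv) qv := ⟨q, hM⟩
    have hcop : Nat.Coprime q (gLevel (ribetLevel p Smin (Piv.erase q)) qv) :=
      hqprime.coprime_iff_not_dvd.mpr hqN
    obtain ⟨u, hu⟩ := ZMod.unitsMap_surjective hdvd (ZMod.unitOfCoprime q hcop)
    obtain ⟨σ₁, hσ₁⟩ := dUnit_surjective (M := gLevel (ribetLevel p Smin Piv) qv) u
    refine ⟨σ₁, ?_⟩
    have h1 := congrArg (fun v : (ZMod (gLevel (ribetLevel p Smin (Piv.erase q)) qv))ˣ =>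
      (v : ZMod (gLevel (ribetLevel p Smin (Piv.erase q)) qv))) hu
    simp only [ZMod.coe_unitOfCoprime] at h1
    rw [← h1, ← hσ₁, ZMod.unitsMap_def, Units.coe_map, coe_dUnit]
    simp only [MonoidHom.coe_coe, map_intCast]
  have key := UK_UK_of_locZero_cast201 hN hqN (isMid_KG p _ qv) (isMid_KG p _ qv) hM hKK hV₁
    (Set.Subset.refl _) (Set.Subset.refl _) hT hU hzero σ₁ hσ₁ x hx
  rw [key]
  -- compare the diamonds
  rw [diamond_eq_diamondU, diamond_eq_diamondU]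
  apply diamondU_eq_of_gChi
  apply gChi_eq_of_gRed
  funext j
  apply Units.ext
  rw [coe_gRed_dUnit201, coe_gRed_dUnit201, hσ j]
  have hdj : qv j ∣ gLevel (ribetLevel p Smin (Piv.erase q)) qv := dvd_gLevel _ qv j
  have h2 := congrArg (ZMod.castHom hdj (ZMod (qv j))) hσ₁
  simpa using h2

/-! ## Consumer forms -/

section Consumer

variable {p : ℕ} [Fact p.Prime]
  {𝒪 : Type} [CommRing 𝒪] [IsDomain 𝒪] [IsDiscreteValuationRing 𝒪]
  [IsAdicComplete (maximalIdeal 𝒪) 𝒪] [Finite (ResidueField 𝒪)] [CharZero 𝒪]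
  {ρbar : ResidualGaloisRep (ResidueField 𝒪)} {Smin Piv : Finset ℕ} {n r : ℕ} {qv : Fin r → ℕ}
  [NeZero (wilesLevel p .flat Smin (Smin ∪ Piv ∪ Finset.univ.image qv))]

/-- **Step (a), `diamondU` form**: `U_q² = ⟨w⟩` on `V₁` for every unit `w` of `ℤ/(L ∏ qv)` with
`w ≡ q` modulo every Taylor–Wiles prime. -/
theorem iaStepA_diamondU (hA : IAStepAStatement) (hp5 : 5 ≤ p)
    (h : ResidualHyp p 𝒪 ρbar Smin)
    (hflat : (GaloisRepAdic.ofResidualGaloisRep ρbar).IsFlatAt p)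
    (hPiv : IsPivotSet p ρbar Smin Piv)
    (hmin : ∀ q ∈ Piv, ∀ S : Finset ℕ,
      ¬ ResModular 𝒪 ρbar (ribetLevel p Smin (Piv.erase q)) S)
    (hq : IsTWSet p ρbar (Smin ∪ Piv) n qv)
    (PQ : HeckePkg p 𝒪 ρbar .flat Smin (Smin ∪ Piv ∪ Finset.univ.image qv))
    (α : Fin r → 𝒪) (hα : IsFrobLift ρbar qv α)
    (q : ℕ) [Fact q.Prime] (hqP : q ∈ Piv)
    {V₁ : Submodule 𝒪 (Additive (KG p (ribetLevel p Smin Piv) qv) →+ 𝒪)}
    (hV₁ : IsLocPart (isMid_KG p (ribetLevel p Smin Piv) qv) (TsetOf PQ) (UsetOf qv α) V₁)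
    (w : (ZMod (gLevel (ribetLevel p Smin Piv) qv))ˣ)
    (hw : ∀ j, ((gRed (ribetLevel p Smin Piv) qv w j : (ZMod (qv j))ˣ) : ZMod (qv j)) =
      (q : ZMod (qv j))) :
    ∀ x ∈ V₁,
      UK (KG p (ribetLevel p Smin Piv) qv) q (UK (KG p (ribetLevel p Smin Piv) qv) q x) =
        diamondU (isMid_KG p (ribetLevel p Smin Piv) qv) w x := by
  intro x hx
  have hne : NeZero (gLevel (ribetLevel p Smin Piv) qv) :=
    ⟨gLevel_ne_zero _ qv
      (ribetLevel_ne_zero201 p h.hSmin (fun y hy => (hPiv y hy).1))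
      (fun j => (hq.2.1 j).1)⟩
  obtain ⟨σ, hσ⟩ := dUnit_surjective (M := gLevel (ribetLevel p Smin Piv) qv) w
  rw [diamondU_eq _ hσ]
  refine hA p hp5 𝒪 ρbar Smin h hflat Piv hPiv hmin n r qv hq PQ α hα q hqP V₁ hV₁ σ ?_ x hx
  intro j
  rw [← coe_gRed_dUnit201, hσ, hw j]

omit [Fact p.Prime] in
/-- `w ^ (2 h + 1)` is trivial in `Δ_Q` if `h` is a half. -/
theorem gChi_pow_half201 (N₀ : ℕ) {h : ℕ} (hh : IsHalf p qv h)
    (w : (ZMod (gLevel N₀ qv))ˣ) : gChi p N₀ qv (w ^ (2 * h + 1)) = 1 := by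
  rw [gChi_apply, QuotientGroup.mk'_apply, QuotientGroup.eq_one_iff]
  refine (Subgroup.mem_pi _).mpr fun j _ => ?_
  obtain ⟨k, hk⟩ := hh j
  refine ⟨gRed N₀ qv w j ^ k, ?_⟩
  show (gRed N₀ qv w j ^ k) ^ (p ^ padicValNat p (qv j - 1)) = gRed N₀ qv (w ^ (2 * h + 1)) j
  rw [map_pow, Pi.pow_apply, hk, ← pow_mul, mul_comm]

/-- **Step (a), twisted form**: `(⟨w⟩^h U_q)² = 1` on `V₁`, for a half `h`
(`p^{m_j} ∣ 2 h + 1`). -/
theorem iaStepA_twist (hA : IAStepAStatement) (hp5 : 5 ≤ p)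
    (h : ResidualHyp p 𝒪 ρbar Smin)
    (hflat : (GaloisRepAdic.ofResidualGaloisRep ρbar).IsFlatAt p)
    (hPiv : IsPivotSet p ρbar Smin Piv)
    (hmin : ∀ q ∈ Piv, ∀ S : Finset ℕ,
      ¬ ResModular 𝒪 ρbar (ribetLevel p Smin (Piv.erase q)) S)
    (hq : IsTWSet p ρbar (Smin ∪ Piv) n qv)
    (PQ : HeckePkg p 𝒪 ρbar .flat Smin (Smin ∪ Piv ∪ Finset.univ.image qv))
    (α : Fin r → 𝒪) (hα : IsFrobLift ρbar qv α)
    (q : ℕ) [Fact q.Prime] (hqP : q ∈ Piv)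
    {V₁ : Submodule 𝒪 (Additive (KG p (ribetLevel p Smin Piv) qv) →+ 𝒪)}
    (hV₁ : IsLocPart (isMid_KG p (ribetLevel p Smin Piv) qv) (TsetOf PQ) (UsetOf qv α) V₁)
    (w : (ZMod (gLevel (ribetLevel p Smin Piv) qv))ˣ)
    (hw : ∀ j, ((gRed (ribetLevel p Smin Piv) qv w j : (ZMod (qv j))ˣ) : ZMod (qv j)) =
      (q : ZMod (qv j)))
    {e : ℕ} (he : IsHalf p qv e) :
    ∀ x ∈ V₁,
      diamondU (isMid_KG p (ribetLevel p Smin Piv) qv) (w ^ e)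
        (UK (KG p (ribetLevel p Smin Piv) qv) q
          (diamondU (isMid_KG p (ribetLevel p Smin Piv) qv) (w ^ e)
            (UK (KG p (ribetLevel p Smin Piv) qv) q x))) = x := by
  intro x hx
  have hne : NeZero (gLevel (ribetLevel p Smin Piv) qv) :=
    ⟨gLevel_ne_zero _ qv
      (ribetLevel_ne_zero201 p h.hSmin (fun y hy => (hPiv y hy).1))
      (fun j => (hq.2.1 j).1)⟩
  have hqM : q ∣ gLevel (ribetLevel p Smin Piv) qv := by
    refine Dvd.dvd.mul_right ?_ _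
    unfold ribetLevel
    exact Dvd.dvd.mul_left (Finset.dvd_prod_of_mem (fun y => y) hqP) _
  rw [diamondU_UK (isMid_KG p (ribetLevel p Smin Piv) qv) hqM,
    iaStepA_diamondU hA hp5 h hflat hPiv hmin hq PQ α hα q hqP hV₁ w hw x hx,
    ← diamondU_mul, ← diamondU_mul]
  have h1 : w ^ e * w ^ e * w = w ^ (2 * e + 1) := by
    rw [← pow_add, ← pow_succ]
    congr 1
    ring
  rw [h1]
  exact diamondU_of_gChi p _ qv (gChi_pow_half201 _ he w) x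

end Consumer

end Fermat.Agent.S38.H201
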